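import Fermat.Agent.S17.WMW.Kum
import Fermat.Agent.RL.Equivariant
import Fermat.Agent.S24.Degree
import Fermat.Agent.S18.KPack

set_option autoImplicit false

/-!
# S17 / WMW : Kummer data

`IsKD N a b f` : `a = [A₀]` with `A₀` a Galois invariant divisor of degree `0`, `b = [B]`, `div f = 2 B - A₀`.

* task W-KDBasic : `IsKD.two_nsmul`, `IsKD.sub`, `IsKD.mem_KK`, `kum_div`.
  (`ord (τ f / f) v = (2 B - A₀) (τ⁻¹ v) - (2 B - A₀) v = 2 (B (τ⁻¹ v) - B v)`: `SemilinearAut.ord_smul`, `SemilinearAut.divisor_smul_apply`;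
  `((galU N τ f : (FN N)ˣ) : FN N) = aG N τ • (f : FN N)` is `rfl`, see `GES.galU_mem`.)
* task W-KDFix : `IsKD.smul_eq` : if `τ f / f = w ^ 2` then `2 (τ B - B) = div (τ f / f) = 2 div w`, so `τ B - B = div w` (divisors are torsion free)
  and `τ • b = b` (`SemilinearAut.pic0_smul_mk`, `QuotientAddGroup.eq`, `Vm.mk_eq_zero_iff`).
* task W-Inf : `exists_invariant_place` : the place `∞` (order of the `q`-expansion: `w f = (f : LaurentSeries Kb).order` is an `S24.IsVal`,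
  `S24.IsVal.exists_place`; `coeffMap σ` preserves the order; two places with the same `ord` are equal: `S24.mem_iff_ord_nonneg`, `Place.ext`).
* task W-KDExists : `exists_isKD` : `D = RL.red h o a` is invariant (`RL.red_smul`), `A₀ = D - deg D • o`, `[A₀] = a` (`RL.clsOf_red`); `b` from `hdiv`,
  `b = [B]`; `[2 B - A₀] = 0` gives `f`.
-/

noncomputable section

namespace Fermat.Agent.S17.WMW

open AlgebraicCurve ModularCurve
open Fermat.Agent.S24 (Kb FN)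
open Fermat.Agent.GES (GQ VN DN galF galU rhoV Vm)

/-- the semilinear automorphism of `F_N` attached to `τ`. -/
abbrev aG (N : ℕ) (τ : GQ) : SemilinearAut Kb (FN N) :=
  arithmeticGalois (modularFunctionFieldFull N) τ

/-- Kummer data. -/
def IsKD (N : ℕ) (a b : JZero N) (f : (FN N)ˣ) : Prop :=
  ∃ A₀ B : Divisor.degZero (K := Kb) (F := FN N), Pic0.mk A₀ = a ∧ Pic0.mk B = b ∧
    (∀ τ : GQ, aG N τ • (A₀ : Divisor Kb (FN N)) = A₀) ∧
    ∀ v : Place Kb (FN N), v.ord ((f : (FN N)ˣ) : FN N) =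
      2 * (B : Divisor Kb (FN N)) v - (A₀ : Divisor Kb (FN N)) v

theorem kd_mk_eq_zero {N : ℕ} (D : Divisor.degZero (K := Kb) (F := FN N)) (f : FN N) (hf : f ≠ 0)
    (h : ∀ v : Place Kb (FN N), (D : Divisor Kb (FN N)) v = v.ord f) : Pic0.mk D = 0 := by
  unfold Pic0.mk
  rw [QuotientAddGroup.eq_zero_iff, AddSubgroup.mem_addSubgroupOf]
  exact ⟨f, hf, h⟩

theorem IsKD.two_nsmul {N : ℕ} {a b : JZero N} {f : (FN N)ˣ} (h : IsKD N a b f) : 2 • b = a := by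
  obtain ⟨A₀, B, rfl, rfl, -, hf⟩ := h
  rw [← sub_eq_zero]
  have : 2 • Pic0.mk B - Pic0.mk A₀ = Pic0.mk (2 • B - A₀) := rfl
  rw [this]
  refine kd_mk_eq_zero _ (f : FN N) f.ne_zero fun v => ?_
  rw [hf v]
  show ((2 • (B : Divisor Kb (FN N)) - (A₀ : Divisor Kb (FN N))) : Divisor Kb (FN N)) v = _
  simp [two_mul]

theorem IsKD.sub {N : ℕ} {a b a' b' : JZero N} {f f' : (FN N)ˣ} (h : IsKD N a b f)
    (h' : IsKD N a' b' f') : IsKD N (a - a') (b - b') (f / f') := by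
  obtain ⟨A₀, B, rfl, rfl, hA, hf⟩ := h
  obtain ⟨A₀', B', rfl, rfl, hA', hf'⟩ := h'
  refine ⟨A₀ - A₀', B - B', rfl, rfl, fun τ => ?_, fun v => ?_⟩
  · show aG N τ • ((A₀ : Divisor Kb (FN N)) - (A₀' : Divisor Kb (FN N))) = _
    rw [smul_sub, hA, hA']
    rfl
  · rw [Units.val_div_eq_div_val, Fermat.Agent.S24.ord_div v f.ne_zero f'.ne_zero, hf v, hf' v]
    show _ = 2 * ((B : Divisor Kb (FN N)) - (B' : Divisor Kb (FN N))) v -
      ((A₀ : Divisor Kb (FN N)) - (A₀' : Divisor Kb (FN N))) v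
    simp only [Finsupp.coe_sub, Pi.sub_apply]
    ring

theorem kd_ord_galU (N : ℕ) (τ : GQ) (f : (FN N)ˣ) (v : Place Kb (FN N)) :
    v.ord ((galU N τ f : (FN N)ˣ) : FN N) = ((aG N τ)⁻¹ • v).ord (f : FN N) := by
  have h := SemilinearAut.ord_smul (aG N τ) ((aG N τ)⁻¹ • v) (f : FN N)
  rw [smul_inv_smul] at h
  exact h

theorem kd_ord_quot {N : ℕ} {f : (FN N)ˣ} (A₀ B : Divisor Kb (FN N))
    (hA : ∀ τ : GQ, aG N τ • A₀ = A₀)
    (hf : ∀ v : Place Kb (FN N), v.ord ((f : (FN N)ˣ) : FN N) = 2 * B v - A₀ v) (τ : GQ)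
    (v : Place Kb (FN N)) :
    v.ord ((galU N τ f / f : (FN N)ˣ) : FN N) = 2 * ((aG N τ • B - B : Divisor Kb (FN N)) v) := by
  rw [Units.val_div_eq_div_val, Fermat.Agent.S24.ord_div v (Units.ne_zero _) f.ne_zero,
    kd_ord_galU, hf, hf]
  have h1 : A₀ ((aG N τ)⁻¹ • v) = A₀ v := by
    rw [← SemilinearAut.divisor_smul_apply, hA]
  rw [h1, Finsupp.coe_sub, Pi.sub_apply, SemilinearAut.divisor_smul_apply]
  ring

theorem IsKD.mem_KK {N : ℕ} {a b : JZero N} {f : (FN N)ˣ} (h : IsKD N a b f) : f ∈ KK N := by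
  obtain ⟨A₀, B, -, -, hA, hf⟩ := h
  intro τ v
  rw [kd_ord_quot _ _ hA hf τ v]
  exact ⟨_, by push_cast; ring⟩

theorem kum_div (N : ℕ) (f f' : KK N) (τ : GQ) :
    kum N (f / f') τ = kum N f τ - kum N f' τ := by
  unfold kum
  rw [← Vm.mk_div]
  congr 1
  apply Subtype.ext
  show galU N τ ((f : (FN N)ˣ) / (f' : (FN N)ˣ)) / ((f : (FN N)ˣ) / (f' : (FN N)ˣ)) =
    (galU N τ f / f) / (galU N τ f' / f')
  rw [map_div, div_div_div_comm]

theorem IsKD.smul_eq {N : ℕ} {a b : JZero N} {f : (FN N)ˣ} (h : IsKD N a b f) (τ : GQ)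
    (hτ : kum N ⟨f, h.mem_KK⟩ τ = 0) : τ • b = b := by
  obtain ⟨w, hw⟩ := (Vm.mk_eq_zero_iff _).1 hτ
  have hw' : w ^ 2 = galU N τ f / f := hw
  clear hw hτ
  obtain ⟨A₀, B, -, rfl, hA, hf⟩ := h
  rw [← sub_eq_zero, galois_smul_pic0_def, SemilinearAut.pic0_smul_mk]
  have : Pic0.mk (SemilinearAut.degZeroSMulHom (aG N τ) B) - Pic0.mk B =
      Pic0.mk (SemilinearAut.degZeroSMulHom (aG N τ) B - B) := rfl
  rw [this]
  refine kd_mk_eq_zero _ (w : FN N) w.ne_zero fun v => ?_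
  have h1 := kd_ord_quot _ _ hA hf τ v
  rw [← hw', Units.val_pow_eq_pow_val, Fermat.Agent.S24.ord_pow] at h1
  have h2 : v.ord (w : FN N) = (aG N τ • (B : Divisor Kb (FN N)) - B : Divisor Kb (FN N)) v := by
    have h3 : ((2 : ℕ) : ℤ) = 2 := rfl
    rw [h3] at h1
    exact mul_left_cancel₀ two_ne_zero h1
  rw [h2]
  rfl

theorem exists_invariant_place (N : ℕ) [NeZero N] :
    ∃ o : Place Kb (FN N), ∀ τ : GQ, aG N τ • o = o := by
  have hw := Fermat.Agent.S18.KPack.isVal_order_FN N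
  obtain ⟨o, m, hm, ho, hsub⟩ := hw.exists_place
  refine ⟨o, fun τ => ?_⟩
  apply Fermat.Agent.S24.place_ext_of_le
  intro f hf
  rw [SemilinearAut.smul_toValuationSubring,
    ValuationSubring.mem_pointwise_smul_iff_inv_smul_mem, hsub] at hf
  rw [hsub]
  have h1 : ((aG N τ)⁻¹ • f : FN N) = galF N τ⁻¹ f := by
    rw [← map_inv]
    rfl
  rw [h1] at hf
  rcases hf with hf | hf
  · left
    exact (map_eq_zero _).1 hf
  · right
    have h2 : (galF N τ⁻¹ f).1.order = f.1.order := by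
      rw [Fermat.Agent.GES.coe_galF]
      exact Fermat.Agent.S18.KPack.order_coeffMap _ _
    show 0 ≤ f.1.order
    rw [← h2]
    exact hf

theorem exists_isKD (N : ℕ) [NeZero N] (hdiv : ∀ a : JZero N, ∃ b : JZero N, 2 • b = a)
    (a : JZero N) (ha : ∀ τ : GQ, τ • a = a) : ∃ (b : JZero N) (f : (FN N)ˣ), IsKD N a b f := by
  have h := Fermat.Agent.S24.isFF1_FN N
  obtain ⟨o, ho⟩ := exists_invariant_place N
  obtain ⟨b, hb⟩ := hdiv a
  obtain ⟨B, rfl⟩ := Pic0.mk_surjective b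
  set D := RL.red h o a with hD
  have hDinv : ∀ τ : GQ, aG N τ • D = D := by
    intro τ
    rw [hD, ← RL.red_smul h (aG N τ) (ho τ) a]
    congr 1
    exact ha τ
  let A₀ : Divisor.degZero (K := Kb) (F := FN N) :=
    ⟨D - Divisor.degree D • RL.pt o, RL.sub_degree_smul_mem_degZero h o D⟩
  have hA₀ : Pic0.mk A₀ = a := RL.clsOf_red h o a
  have hz : Pic0.mk (2 • B - A₀) = 0 := by
    have : Pic0.mk (2 • B - A₀) = 2 • Pic0.mk B - Pic0.mk A₀ := rfl
    rw [this, hb, hA₀, sub_self]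
  unfold Pic0.mk at hz
  rw [QuotientAddGroup.eq_zero_iff, AddSubgroup.mem_addSubgroupOf] at hz
  obtain ⟨f, hf0, hf⟩ := hz
  refine ⟨Pic0.mk B, Units.mk0 f hf0, A₀, B, hA₀, rfl, fun τ => ?_, fun v => ?_⟩
  · show aG N τ • (D - Divisor.degree D • RL.pt o) = D - Divisor.degree D • RL.pt o
    rw [smul_sub, hDinv, smul_comm, SemilinearAut.smul_single, ho]
  · rw [Units.val_mk0, ← hf v]
    show ((2 • (B : Divisor Kb (FN N)) - (A₀ : Divisor Kb (FN N))) : Divisor Kb (FN N)) v = _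
    simp [two_mul]

end Fermat.Agent.S17.WMW
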