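import Fermat.Agent.S17.WMW.Open
import Fermat.Agent.S17.WMW.Data

set_option autoImplicit false

/-!
# S17 / WMW, task W-Main : the weak Mordell-Weil theorem `J₀(N)(ℚ) / 2 J₀(N)(ℚ)` is finite

Sketch.  `G = FixedPoints.addSubgroup GQ (JZero N)`.  For `a : G` choose `b a`, `f a` with `IsKD N a (b a) (f a)` (`exists_isKD`).
`Φ a : GQ ⧸ HH N → VN N 2`, `Φ a q = kum N (f a) q.out`.  For `σ : GQ`, `σ = q.out * η` with `η ∈ HH N`, so `kum N (f a) σ = kum N (f a) q.out` (`kum_mul`, `mem_HH`).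
If `Φ a = Φ a'` then `kum N (f a / f a') σ = 0` for all `σ` (`kum_div`), so `σ • (b a - b a') = b a - b a'` (`IsKD.sub`, `IsKD.smul_eq`), i.e. `c = b a - b a' ∈ G`
and `a - a' = 2 • c` (`IsKD.two_nsmul`).  Hence `G ⧸ 2 G` injects into the finite set `GQ ⧸ HH N → VN N 2` (`finite_quotient_HH`, `finite_VN`):
`Finite.of_injective`, `AddSubgroup.finiteIndex_of_finite_quotient`.
-/

noncomputable section

namespace Fermat.Agent.S17.WMW

open AlgebraicCurve ModularCurve
open Fermat.Agent.S24 (Kb FN)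
open Fermat.Agent.GES (GQ VN DN galF galU rhoV Vm)

theorem main_kum_out (N : ℕ) (f : KK N) (σ : GQ) :
    kum N f ((QuotientGroup.mk σ : GQ ⧸ HH N).out) = kum N f σ := by
  have h : σ⁻¹ * (QuotientGroup.mk σ : GQ ⧸ HH N).out ∈ HH N := by
    rw [← QuotientGroup.eq]
    exact (QuotientGroup.out_eq' _).symm
  have h2 : (QuotientGroup.mk σ : GQ ⧸ HH N).out = σ * (σ⁻¹ * (QuotientGroup.mk σ : GQ ⧸ HH N).out) := by
    group
  rw [h2, kum_mul, h.2 f, map_zero, zero_add]

theorem finiteIndex_two (N : ℕ) [NeZero N] (hdiv : ∀ a : JZero N, ∃ b : JZero N, 2 • b = a) :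
    (nsmulAddMonoidHom (α := ↥(FixedPoints.addSubgroup
      ((AlgebraicClosure ℚ) ≃ₐ[ℚ] (AlgebraicClosure ℚ)) (JZero N))) 2).range.FiniteIndex := by
  classical
  set G := ↥(FixedPoints.addSubgroup ((AlgebraicClosure ℚ) ≃ₐ[ℚ] (AlgebraicClosure ℚ)) (JZero N))
    with hG
  have hfix : ∀ a : G, ∀ τ : GQ, τ • (a : JZero N) = a := fun a τ => a.2 τ
  choose b f hkd using fun a : G => exists_isKD N hdiv (a : JZero N) (hfix a)
  let Φ : G → (GQ ⧸ HH N → VN N 2) := fun a q => kum N ⟨f a, (hkd a).mem_KK⟩ q.out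
  have key : ∀ a a' : G, Φ a = Φ a' →
      a - a' ∈ (nsmulAddMonoidHom (α := G) 2).range := by
    intro a a' h
    have hsub := (hkd a).sub (hkd a')
    have hz : ∀ σ : GQ, kum N ⟨f a / f a', hsub.mem_KK⟩ σ = 0 := by
      intro σ
      have h1 := kum_div N ⟨f a, (hkd a).mem_KK⟩ ⟨f a', (hkd a').mem_KK⟩ σ
      have h2 := congrFun h (QuotientGroup.mk σ)
      simp only [Φ] at h2
      rw [main_kum_out, main_kum_out] at h2
      rw [h2, sub_self] at h1
      exact h1
    have hc : ∀ σ : GQ, σ • (b a - b a') = b a - b a' := fun σ => hsub.smul_eq σ (hz σ)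
    refine ⟨⟨b a - b a', hc⟩, ?_⟩
    apply Subtype.ext
    show 2 • (b a - b a') = (a : JZero N) - (a' : JZero N)
    exact hsub.two_nsmul
  have := finite_quotient_HH N
  have := finite_VN N 2
  let Ψ : G ⧸ (nsmulAddMonoidHom (α := G) 2).range → (GQ ⧸ HH N → VN N 2) := fun q => Φ q.out
  have hinj : Function.Injective Ψ := by
    intro q q' h
    have := key q.out q'.out h
    rw [← QuotientAddGroup.out_eq' q, ← QuotientAddGroup.out_eq' q', QuotientAddGroup.eq]
    have h3 : -q.out + q'.out = -(q.out - q'.out) := by abel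
    rw [h3]
    exact AddSubgroup.neg_mem _ this
  have : Finite (G ⧸ (nsmulAddMonoidHom (α := G) 2).range) := Finite.of_injective Ψ hinj
  exact AddSubgroup.finiteIndex_of_finite_quotient

end Fermat.Agent.S17.WMW
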