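import Mathlib

set_option autoImplicit false

/-!
# S17 / WMW, task W-EV : an extension with Galois group of exponent 2 is generated by square roots

Mathlib only.  Sketch.  The group `Γ = Gal(E/L)` is commutative (`γ δ γ δ = 1`, `γ⁻¹ = γ`).  By induction on a finset `S ⊆ Γ`:
`x ∈ AddSubgroup.closure {y | ∀ γ ∈ S, γ y = y ∨ γ y = - y}`.  Step `insert γ₀ S`: it suffices to treat a generator `y`
(`AddSubgroup.closure_induction`); `y = (y + γ₀ y) / 2 + (y - γ₀ y) / 2`, both summands are eigenvectors of `γ₀` (`γ₀ (γ₀ y) = y`) and still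
of every `γ ∈ S` (commutativity).  For `S = univ` (`Γ` is finite): `γ (y ^ 2) = y ^ 2` for all `γ`, so `y ^ 2 ∈ L`
(`IsGalois.mem_range_algebraMap_iff_fixed`).
-/

namespace Fermat.Agent.S17.WMW

theorem mem_closure_sq_mem {L E : Type*} [Field L] [Field E] [Algebra L E] [CharZero L]
    [FiniteDimensional L E] [IsGalois L E] (h2 : ∀ γ : E ≃ₐ[L] E, γ * γ = 1) (x : E) :
    x ∈ AddSubgroup.closure {y : E | y ^ 2 ∈ Set.range (algebraMap L E)} := by
  classical
  haveI : CharZero E := charZero_of_injective_algebraMap (algebraMap L E).injective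
  have hinv : ∀ γ : E ≃ₐ[L] E, γ⁻¹ = γ := fun γ => inv_eq_of_mul_eq_one_left (h2 γ)
  have hcomm : ∀ γ δ : E ≃ₐ[L] E, γ * δ = δ * γ := by
    intro γ δ
    calc γ * δ = (γ * δ)⁻¹ := (hinv _).symm
      _ = δ⁻¹ * γ⁻¹ := mul_inv_rev _ _
      _ = δ * γ := by rw [hinv γ, hinv δ]
  have hsq : ∀ (γ : E ≃ₐ[L] E) (y : E), γ (γ y) = y := by
    intro γ y
    rw [← AlgEquiv.mul_apply, h2, AlgEquiv.one_apply]
  have hc : ∀ (γ δ : E ≃ₐ[L] E) (y : E), γ (δ y) = δ (γ y) := by
    intro γ δ y
    rw [← AlgEquiv.mul_apply, hcomm, AlgEquiv.mul_apply]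
  have key : ∀ S : Finset (E ≃ₐ[L] E), ∀ x : E,
      x ∈ AddSubgroup.closure {y : E | ∀ γ ∈ S, γ y = y ∨ γ y = -y} := by
    intro S
    induction S using Finset.induction_on with
    | empty =>
      intro x
      exact AddSubgroup.subset_closure (by simp)
    | insert γ₀ S hγ₀ ih =>
      intro x
      have hx := ih x
      induction hx using AddSubgroup.closure_induction with
      | mem y hy =>
        have e : y = (y + γ₀ y) / 2 + (y - γ₀ y) / 2 := by ring
        rw [e]
        refine add_mem (AddSubgroup.subset_closure ?_) (AddSubgroup.subset_closure ?_)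
        · intro γ hγ
          rw [Finset.mem_insert] at hγ
          rcases hγ with rfl | hγ
          · left
            rw [map_div₀, map_add, hsq, map_ofNat, add_comm]
          · rcases hy γ hγ with h | h
            · left
              rw [map_div₀, map_add, hc γ γ₀, h, map_ofNat]
            · right
              rw [map_div₀, map_add, hc γ γ₀, h, map_neg, map_ofNat]
              ring
        · intro γ hγ
          rw [Finset.mem_insert] at hγ
          rcases hγ with rfl | hγ
          · right
            rw [map_div₀, map_sub, hsq, map_ofNat]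
            ring
          · rcases hy γ hγ with h | h
            · left
              rw [map_div₀, map_sub, hc γ γ₀, h, map_ofNat]
            · right
              rw [map_div₀, map_sub, hc γ γ₀, h, map_neg, map_ofNat]
              ring
      | zero => exact zero_mem _
      | add a b _ _ ha hb => exact add_mem ha hb
      | neg a _ ha => exact neg_mem ha
  refine AddSubgroup.closure_mono ?_ (key Finset.univ x)
  intro y hy
  rw [Set.mem_ofPred_eq, IsGalois.mem_range_algebraMap_iff_fixed]
  intro γ
  rcases hy γ (Finset.mem_univ _) with h | h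
  · rw [map_pow, h]
  · rw [map_pow, h, neg_sq]

end Fermat.Agent.S17.WMW
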