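import Mathlib

set_option autoImplicit false

/-!
# S17 / WMW, task W-Fin : finite Galois levels inside the fixed field of a normal subgroup

Mathlib only.  Sketch.  `E = IntermediateField.normalClosure ℚ ↥(L ⊔ ℚ⟮x⟯) Kb` (finite dimensional, normal, hence Galois in
characteristic `0`; `IntermediateField.le_normalClosure`).  `H ≤ E.fixingSubgroup`: equivalently `E ≤ fixedField H`
(`IntermediateField.le_iff_le`), and by `IntermediateField.normalClosure_le_iff` it suffices that `f z` is fixed by `H` for every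
`f : ↥(L ⊔ ℚ⟮x⟯) →ₐ[ℚ] Kb`; extend `f` to `σ : Kb ≃ₐ[ℚ] Kb` (`AlgHom.liftNormal` / `IsAlgClosed.lift` + bijectivity of algebraic
endomorphisms `Algebra.IsAlgebraic.algHom_bijective`); `h (σ z) = σ ((σ⁻¹ * h * σ) z) = σ z` because `σ⁻¹ h σ ∈ H` fixes `L` and `x`, hence
`L ⊔ ℚ⟮x⟯` (it is contained in `fixedField H`).
-/

namespace Fermat.Agent.S17.WMW

open IntermediateField

-- NOTE: `Algebra.IsAlgebraic ℚ Kb`, `IsGalois ℚ Kb`, `CompactSpace GQ` are NOT found by instance search; use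
-- `have := AlgebraicClosure.isAlgebraic ℚ`, or (if `Fermat.Agent.S54.Frob` is imported)
-- `attribute [local instance] Fermat.Agent.S54.isAlgebraic_Lb Fermat.Agent.S54.isAlgClosure_Lb Fermat.Agent.S54.isGalois_Lb`.

local notation "Kb" => AlgebraicClosure ℚ
local notation "GQ" => (AlgebraicClosure ℚ ≃ₐ[ℚ] AlgebraicClosure ℚ)

theorem exists_finite_galois (H : Subgroup GQ) (hHn : H.Normal)
    (L : IntermediateField ℚ Kb) [FiniteDimensional ℚ L] (hHL : H ≤ L.fixingSubgroup)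
    (x : Kb) (hx : ∀ h ∈ H, h x = x) :
    ∃ E : IntermediateField ℚ Kb, FiniteDimensional ℚ E ∧ IsGalois ℚ E ∧ L ≤ E ∧ x ∈ E ∧
      H ≤ E.fixingSubgroup := by
  haveI halg := AlgebraicClosure.isAlgebraic ℚ
  haveI : Normal ℚ Kb := normal_iff.2 fun y =>
    ⟨(halg.isAlgebraic y).isIntegral, IsAlgClosed.splits _⟩
  haveI : FiniteDimensional ℚ ℚ⟮x⟯ :=
    IntermediateField.adjoin.finiteDimensional (halg.isAlgebraic x).isIntegral
  haveI : FiniteDimensional ℚ ↥(L ⊔ ℚ⟮x⟯) := IntermediateField.finiteDimensional_sup L ℚ⟮x⟯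
  have hM : L ⊔ ℚ⟮x⟯ ≤ IntermediateField.fixedField H := by
    refine sup_le ?_ ?_
    · intro z hz
      rw [IntermediateField.mem_fixedField_iff]
      intro h hh
      exact (IntermediateField.mem_fixingSubgroup_iff L h).1 (hHL hh) z hz
    · rw [IntermediateField.adjoin_simple_le_iff, IntermediateField.mem_fixedField_iff]
      exact hx
  have hdef := IntermediateField.normalClosure_def'' (L ⊔ ℚ⟮x⟯)
  have hle := IntermediateField.le_normalClosure (L ⊔ ℚ⟮x⟯)
  have hfd := normalClosure.is_finiteDimensional ℚ ↥(L ⊔ ℚ⟮x⟯) Kb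
  have hnor := normalClosure.normal ℚ ↥(L ⊔ ℚ⟮x⟯) Kb
  refine ⟨_, hfd, isGalois_iff.2 ⟨inferInstance, hnor⟩, le_sup_left.trans hle,
    hle (le_sup_right (a := L) (IntermediateField.mem_adjoin_simple_self ℚ x)), ?_⟩
  rw [← IntermediateField.le_iff_le]
  refine (le_of_eq hdef).trans ?_
  rw [iSup_le_iff]
  rintro σ _ ⟨z, hz, rfl⟩
  rw [IntermediateField.mem_fixedField_iff]
  intro h hh
  have h1 : σ⁻¹ * h * σ ∈ H := by
    have := hHn.conj_mem h hh σ⁻¹
    rwa [inv_inv] at this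
  have h2 : (σ⁻¹ * h * σ) z = z :=
    (IntermediateField.mem_fixedField_iff H z).1 (hM hz) _ h1
  have h3 : σ ((σ⁻¹ * h * σ) z) = h (σ z) := by
    rw [AlgEquiv.mul_apply, AlgEquiv.mul_apply, ← AlgEquiv.mul_apply σ σ⁻¹, mul_inv_cancel,
      AlgEquiv.one_apply]
  show h (σ z) = σ z
  rw [← h3, h2]

end Fermat.Agent.S17.WMW
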