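import Fermat.Agent.S17.WMW.EV
import Fermat.Agent.S17.WMW.Fin

set_option autoImplicit false

/-!
# S17 / WMW, task W-EVG : the fixed field of `H` is generated over `L` by square roots

Sketch.  `E` from `exists_finite_galois`, `F = IntermediateField.extendScalars (hLE : L ≤ E) : IntermediateField L Kb`
(finite and Galois over `L`: `IsGalois.tower_top_of_isGalois ℚ L F` after identifying `F` with `E`).  Every `γ : F ≃ₐ[L] F` satisfies `γ * γ = 1`:
lift `γ` to `τ' : Kb ≃ₐ[L] Kb` (`AlgEquiv.restrictNormalHom_surjective`), `τ = τ'.restrictScalars ℚ ∈ L.fixingSubgroup`, `τ * τ ∈ H` fixes `E`.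
`mem_closure_sq_mem` for `⟨x, _⟩ : F`, then push the closure forward along the inclusion `F → Kb`
(`AddSubgroup.closure_induction`, or `AddMonoidHom.map_closure`).
-/

namespace Fermat.Agent.S17.WMW

-- NOTE: `Algebra.IsAlgebraic ℚ Kb`, `IsGalois ℚ Kb`, `CompactSpace GQ` are NOT found by instance search; use
-- `have := AlgebraicClosure.isAlgebraic ℚ`, or (if `Fermat.Agent.S54.Frob` is imported)
-- `attribute [local instance] Fermat.Agent.S54.isAlgebraic_Lb Fermat.Agent.S54.isAlgClosure_Lb Fermat.Agent.S54.isGalois_Lb`.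

local notation "Kb" => AlgebraicClosure ℚ
local notation "GQ" => (AlgebraicClosure ℚ ≃ₐ[ℚ] AlgebraicClosure ℚ)

theorem mem_closure_of_fixed (H : Subgroup GQ) (hHn : H.Normal)
    (L : IntermediateField ℚ Kb) [FiniteDimensional ℚ L] (hHL : H ≤ L.fixingSubgroup)
    (hsq : ∀ τ ∈ L.fixingSubgroup, τ * τ ∈ H) (x : Kb) (hx : ∀ h ∈ H, h x = x) :
    x ∈ AddSubgroup.closure {y : Kb | (∀ h ∈ H, h y = y) ∧ y ^ 2 ∈ L} := by
  haveI halg := AlgebraicClosure.isAlgebraic ℚ
  haveI : Normal ℚ Kb := normal_iff.2 fun y =>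
    ⟨(halg.isAlgebraic y).isIntegral, IsAlgClosed.splits _⟩
  obtain ⟨E, hEfd, hEgal, hLE, hxE, hHE⟩ := exists_finite_galois H hHn L hHL x hx
  letI : Algebra L E := (IntermediateField.inclusion hLE).toRingHom.toAlgebra
  have hmap : ∀ l : L, ((algebraMap L E l : E) : Kb) = l := fun l => rfl
  haveI : IsScalarTower ℚ L E := IsScalarTower.of_algebraMap_eq fun q =>
    ((IntermediateField.inclusion hLE).commutes q).symm
  haveI : FiniteDimensional L E := FiniteDimensional.right ℚ L E
  haveI : IsGalois L E := IsGalois.tower_top_of_isGalois ℚ L E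
  have h2 : ∀ γ : E ≃ₐ[L] E, γ * γ = 1 := by
    intro γ
    obtain ⟨τ, hτ⟩ := AlgEquiv.restrictNormalHom_surjective (F := ℚ) (K₁ := E) Kb
      (γ.restrictScalars ℚ)
    have hτ' : ∀ z : E, τ (z : Kb) = (γ z : E) := by
      intro z
      have h1 := AlgEquiv.restrictNormal_commutes τ E z
      have h3 : τ.restrictNormal E z = γ z := by
        have := congrArg (fun f : E ≃ₐ[ℚ] E => f z) hτ
        exact this
      rw [h3] at h1
      exact h1.symm
    have hτL : τ ∈ L.fixingSubgroup := by
      rw [IntermediateField.mem_fixingSubgroup_iff]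
      intro z hz
      have h1 := hτ' (algebraMap L E ⟨z, hz⟩)
      rw [γ.commutes] at h1
      exact h1
    have hττ := hHE (hsq τ hτL)
    rw [IntermediateField.mem_fixingSubgroup_iff] at hττ
    ext z
    rw [AlgEquiv.mul_apply, AlgEquiv.one_apply, ← hτ', ← hτ']
    exact hττ z z.2
  have key : ∀ z : E, z ∈ AddSubgroup.closure {y : E | y ^ 2 ∈ Set.range (algebraMap L E)} →
      (z : Kb) ∈ AddSubgroup.closure {y : Kb | (∀ h ∈ H, h y = y) ∧ y ^ 2 ∈ L} := by
    intro z hz
    induction hz using AddSubgroup.closure_induction with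
    | mem y hy =>
      refine AddSubgroup.subset_closure ⟨fun h hh => ?_, ?_⟩
      · exact (IntermediateField.mem_fixingSubgroup_iff E h).1 (hHE hh) y y.2
      · obtain ⟨l, hl⟩ := hy
        have h1 := congrArg (Subtype.val : E → Kb) hl
        rw [hmap] at h1
        have h3 : ((y ^ 2 : E) : Kb) = (y : Kb) ^ 2 := rfl
        rw [← h3, ← h1]
        exact l.2
    | zero => exact zero_mem _
    | add a b _ _ ha hb => exact add_mem ha hb
    | neg a _ ha => exact neg_mem ha
  exact key ⟨x, hxE⟩ (mem_closure_sq_mem h2 _)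

end Fermat.Agent.S17.WMW
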