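import Fermat.Agent.S17.WMW.Kum

set_option autoImplicit false
set_option synthInstance.maxHeartbeats 400000

/-!
# S17 / WMW : the Kummer cocycles are unramified outside `2 N`  (from `S18.cc_gen`, as `GES.unram`)
-/

noncomputable section

namespace Fermat.Agent.S17.WMW

open AlgebraicCurve ModularCurve
open Fermat.Agent.S24 (Kb FN)
open Fermat.Agent.GES
open Fermat.Agent.S18 (IntA SmallA cc_gen)

theorem kum_inertia (N ℓ : ℕ) [NeZero N] (hℓ : ℓ.Prime) (hℓN2 : ¬ ℓ ∣ N * 2)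
    (A : ValuationSubring Kb) (hA : A.LiesOverPrime ℓ) (τ : GQ) (hτ : τ ∈ A.inertiaSubgroupIn ℚ)
    (f : KK N) : kum N f τ = 0 := by
  have hℓN : ¬ ℓ ∣ N := fun h => hℓN2 (Dvd.dvd.mul_right h 2)
  have hℓm : ¬ ℓ ∣ 2 := fun h => hℓN2 (Dvd.dvd.mul_left h N)
  have hτD := mem_decomposition_of_mem_inertia A hτ
  obtain ⟨c, a, b, hc, ha, hb, ha', hb', hf⟩ :=
    exists_normal_form N hℓ A hA ((f : (FN N)ˣ) : FN N) (f : (FN N)ˣ).ne_zero
  have ha0 : a ≠ 0 := rel_ne_zero ha'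
  have hb0 : b ≠ 0 := rel_ne_zero hb'
  obtain ⟨hta, hta'⟩ := cong_inertia N A τ hτ a ha
  obtain ⟨htb, htb'⟩ := cong_inertia N A τ hτ b hb
  have hτa0 : galF N τ a ≠ 0 := (map_ne_zero _).2 ha0
  have hτb0 : galF N τ b ≠ 0 := (map_ne_zero _).2 hb0
  have hτc : τ c ≠ 0 := (map_ne_zero _).2 hc
  refine mk_eq_zero_of_cong N (cc_gen N hℓ hℓN 2 hℓm) A hA _ (τ c / c) (div_ne_zero hτc hc)
    (galF N τ a * b) (a * galF N τ b) (IntA.mul hta hb) (IntA.mul ha htb)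
    (not_smallA_mul ha htb ha' (rel_not_smallA_galF hτD hb')) ?_ ?_
  · have : (galF N τ a * b).1 - (a * galF N τ b).1 =
        ((galF N τ a).1 - a.1) * b.1 - a.1 * ((galF N τ b).1 - b.1) := by
      show (galF N τ a).1 * b.1 - a.1 * (galF N τ b).1 = _
      ring
    rw [this]
    exact SmallA.sub (SmallA.mul_right hta' hb) (SmallA.mul_left htb' ha)
  · show ((galU N τ (f : (FN N)ˣ) / (f : (FN N)ˣ) : (FN N)ˣ) : FN N) = _
    rw [Units.val_div_eq_div_val]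
    show galF N τ ((f : (FN N)ˣ) : FN N) / ((f : (FN N)ˣ) : FN N) = _
    rw [hf, rel_galF_formula, map_div₀]
    have hc1 : algebraMap Kb (FN N) c ≠ 0 := by simpa using hc
    have hc2 : algebraMap Kb (FN N) (τ c) ≠ 0 := by simpa using hτc
    field_simp

/-- `HH N` contains the inertia groups above the primes not dividing `2 N`. -/
theorem inertia_le_HH (N ℓ : ℕ) [NeZero N] (hℓ : ℓ.Prime) (hℓN2 : ¬ ℓ ∣ N * 2)
    (A : ValuationSubring Kb) (hA : A.LiesOverPrime ℓ) : A.inertiaSubgroupIn ℚ ≤ HH N :=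
  fun τ hτ => ⟨unram N 2 ℓ hℓ hℓN2 A hA τ hτ, fun f => kum_inertia N ℓ hℓ hℓN2 A hA τ hτ f⟩

end Fermat.Agent.S17.WMW
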