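import Fermat.Agent.S17.WMW.Fin
import Fermat.Agent.S13.Global
import Fermat.Agent.S14.TR.A1Ram
import Fermat.Agent.S14.TR.A3Inertia
import Fermat.Agent.FD.Lift
import Fermat.Agent.FD.Fibers

set_option autoImplicit false
set_option linter.unusedVariables false

/-!
# S17 / WMW, task W-Unr : square roots in an extension unramified at `v` have even valuation at `v`

`H` closed normal in `G_ℚ`, containing the inertia groups above the rational prime below `v`; `y` fixed by `H`, `y ^ 2 = d ∈ L`.
Then `ord_v d` is even.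

Sketch (this is the end of `Fermat.Agent.S13.eq_top_of_inertia_le`, relative to `L`).
`E` from `exists_finite_galois` (contains `L` and `y`), `H' = E.fixingSubgroup ⊇ H` is closed, normal (`E/ℚ` Galois) and contains the same
inertia groups.  `F = IntermediateField.extendScalars (L ≤ E)`, a number field, Galois over `L`.  Choose a prime `w` of `𝓞 F` above `v`
(`Ideal.exists_ideal_over_maximal_of_isIntegral` / `HeightOneSpectrum` API) and `A` above `w` (`FD.exists_valuationSubring_over` for `E`;
`A.LiesOverPrime (below L v)`).  Let `τ̄ : F ≃ₐ[L] F` act trivially on `𝓞 F / w`.  Lift it to `τ' ∈ G_ℚ`.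
`S13.global_mem_of_inertia_le H' … A … τ'` (an element of `ℤ̄` fixed by `H'` lies in `𝓞 E`, and `τ' x - x ∈ w ⊆ centre A`) gives `τ' ∈ H'`, i.e. `τ̄ = 1`.
`S14.TR.ramificationIdx_eq_one_of_trivial_inertia` gives `e(w | v) = 1`, and
`S14.TR.exists_val_eq_pow_of_ramificationIdx_eq_one v w he 2 d ⟨y, _⟩` concludes.
-/

namespace Fermat.Agent.S17.WMW

open NumberField IsDedekindDomain

local notation "Kb" => AlgebraicClosure ℚ
local notation "GQ" => (AlgebraicClosure ℚ ≃ₐ[ℚ] AlgebraicClosure ℚ)

attribute [local instance] Fermat.Agent.S54.isAlgebraic_Lb Fermat.Agent.S54.isAlgClosure_Lb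
  Fermat.Agent.S54.isGalois_Lb

theorem val_sq_of_inertia_le (H : Subgroup GQ) (hHn : H.Normal) (hHc : IsClosed (H : Set GQ))
    (L : IntermediateField ℚ Kb) [FiniteDimensional ℚ L] (hHL : H ≤ L.fixingSubgroup)
    (y : Kb) (hy0 : y ≠ 0) (hy : ∀ h ∈ H, h y = y) (d : L) (hd : (d : Kb) = y ^ 2)
    (v : HeightOneSpectrum (𝓞 L))
    (hI : ∀ A : ValuationSubring Kb, A.LiesOverPrime (FD.below L v) →
      A.inertiaSubgroupIn ℚ ≤ H) :
    ∃ z : L, v.valuation L d = v.valuation L z ^ 2 := by
  obtain ⟨E, hEfd, hEgal, hLE, hyE, hHE⟩ := exists_finite_galois H hHn L hHL y hy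
  have hnorm : Normal ℚ E := hEgal.to_normal
  let _ : Algebra L E := (IntermediateField.inclusion hLE).toRingHom.toAlgebra
  have hst : IsScalarTower ℚ L E := IsScalarTower.of_algebraMap_eq (fun x => rfl)
  have hgal : IsGalois L E := IsGalois.tower_top_of_isGalois ℚ L E
  obtain ⟨w, hw⟩ := FD.underH_surjective (L := E) L v
  have hlo : w.asIdeal.LiesOver v.asIdeal := by
    rw [← hw]; infer_instance
  have hbel : FD.below E w = FD.below L v := by
    rw [← hw, FD.below_underH]
  obtain ⟨A, hA, hAw⟩ := FD.exists_valuationSubring_over E w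
  rw [hbel] at hA
  have hp : (FD.below L v).Prime := FD.below_prime L v
  have hIA : A.inertiaSubgroupIn ℚ ≤ E.fixingSubgroup := (hI A hA).trans hHE
  have hEn : (E.fixingSubgroup).Normal := by
    rw [InfiniteGalois.normal_iff_isGalois]
    exact hEgal
  have hEc : IsClosed (E.fixingSubgroup : Set GQ) := E.fixingSubgroup_isClosed
  have he : v.asIdeal.ramificationIdx' w.asIdeal = 1 := by
    apply S14.TR.ramificationIdx_eq_one_of_trivial_inertia v w
    intro τ hτ
    obtain ⟨τ', hτ'⟩ := AlgEquiv.restrictNormalHom_surjective Kb (τ.restrictScalars ℚ)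
    have hmem : τ' ∈ E.fixingSubgroup := by
      apply S13.global_mem_of_inertia_le E.fixingSubgroup hEn hEc A hp hA hIA τ'
      intro x hx
      have hxE : (x : Kb) ∈ E := by
        rw [← InfiniteGalois.fixedField_fixingSubgroup E, IntermediateField.mem_fixedField_iff]
        intro h hh
        exact congrArg Subtype.val (hx h hh)
      have hxint : IsIntegral ℤ (⟨x, hxE⟩ : E) := by
        have h1 : IsIntegral ℤ (algebraMap E Kb ⟨x, hxE⟩) := x.2
        exact (isIntegral_algebraMap_iff (algebraMap E Kb).injective).mp h1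
      let x' : 𝓞 E := ⟨⟨x, hxE⟩, hxint⟩
      obtain ⟨δ, hδw, hδ⟩ := hτ x'
      rw [S54.mem_centre_iff]
      have h1 := (hAw δ).mp hδw
      have h4 : algebraMap E Kb ((τ.restrictScalars ℚ) (x' : E)) = τ' (x : Kb) := by
        rw [← hτ']
        exact AlgEquiv.restrictNormal_commutes τ' E _
      have h2 : (((δ : E) : Kb)) = τ' (x : Kb) - (x : Kb) := by
        rw [hδ, ← h4]
        rfl
      rw [h2] at h1
      exact h1
    ext z
    have h5 : algebraMap E Kb ((τ.restrictScalars ℚ) z) = τ' (z : Kb) := by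
      rw [← hτ']
      exact AlgEquiv.restrictNormal_commutes τ' E _
    have h6 : τ' (z : Kb) = z := (IntermediateField.mem_fixingSubgroup_iff _ _).mp hmem z z.2
    rw [h6] at h5
    exact h5
  exact S14.TR.exists_val_eq_pow_of_ramificationIdx_eq_one v w he 2 d ⟨y, hyE⟩
    (by intro h; exact hy0 (congrArg Subtype.val h)) (Subtype.ext hd)

end Fermat.Agent.S17.WMW
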