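import Fermat.Agent.S17.WMW.Sel
import Fermat.Agent.S17.WMW.EVG
import Fermat.Agent.S17.WMW.Unr
import Fermat.Agent.FD.Fibers

set_option autoImplicit false

/-!
# S17 / WMW, task W-KF : Kummer finiteness

A closed normal subgroup `H` of `G_ℚ`, contained in `G_L` with `G_L / H` of exponent `2`, and containing all inertia groups
above the primes not dividing `M`, is open.

Sketch.  `T = {v | below L v ∣ M}` is finite (`(M : 𝓞 L) ∈ v.asIdeal` by `FD.natCast_mem_iff`; `Ideal.finite_factors` for `span {M}`).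
`R` from `exists_selmer_reps L T`; for `r ∈ R` choose `s r : Kb` with `s r ^ 2 = r` (`IsAlgClosed.exists_pow_nat_eq`);
`E = L ⊔ IntermediateField.adjoin ℚ (s '' R)` is finite dimensional.  Let `τ ∈ E.fixingSubgroup`.  As `H` is closed,
`H = (fixedField H).fixingSubgroup` (`InfiniteGalois.fixingSubgroup_fixedField ⟨H, hHc⟩`), so it suffices that `τ x = x` for `x` fixed by `H`.
By `mem_closure_of_fixed` we may assume `x = y` with `y ^ 2 = d ∈ L`, `y` fixed by `H`, `y ≠ 0`.  By `val_sq_of_inertia_le` (for `v ∉ T`) and the choice of `R`,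
`d = r c ^ 2`, so `y = ± c * s r ∈ E`.
-/

namespace Fermat.Agent.S17.WMW

open NumberField IsDedekindDomain

local notation "Kb" => AlgebraicClosure ℚ
local notation "GQ" => (AlgebraicClosure ℚ ≃ₐ[ℚ] AlgebraicClosure ℚ)

attribute [local instance] Fermat.Agent.S54.isAlgebraic_Lb Fermat.Agent.S54.isAlgClosure_Lb
  Fermat.Agent.S54.isGalois_Lb

theorem exists_level_of_exponent_two (H : Subgroup GQ) (hHn : H.Normal)
    (hHc : IsClosed (H : Set GQ)) (L : IntermediateField ℚ Kb) [FiniteDimensional ℚ L]
    (hHL : H ≤ L.fixingSubgroup) (hsq : ∀ τ ∈ L.fixingSubgroup, τ * τ ∈ H) (M : ℕ) (hM : M ≠ 0)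
    (hI : ∀ ℓ : ℕ, ℓ.Prime → ¬ ℓ ∣ M → ∀ A : ValuationSubring Kb, A.LiesOverPrime ℓ →
      A.inertiaSubgroupIn ℚ ≤ H) :
    ∃ E : IntermediateField ℚ Kb, FiniteDimensional ℚ E ∧ E.fixingSubgroup ≤ H := by
  classical
  have hTfin : {P : HeightOneSpectrum (𝓞 L) | FD.below L P ∣ M}.Finite := FD.finite_below_dvd (L := L) hM
  obtain ⟨R, hR⟩ := exists_selmer_reps L hTfin.toFinset
  have hs : ∀ r : L, ∃ s : Kb, s ^ 2 = (r : Kb) := fun r =>
    IsAlgClosed.exists_pow_nat_eq _ (by norm_num)
  choose s hs using hs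
  let S : Set Kb := s '' (R : Set L)
  have hSfin : S.Finite := (R.finite_toSet).image s
  have hfd : FiniteDimensional ℚ (IntermediateField.adjoin ℚ S) := by
    have := hSfin.to_subtype
    exact IntermediateField.finiteDimensional_adjoin (fun x _ => (Algebra.IsAlgebraic.isAlgebraic x).isIntegral)
  refine ⟨L ⊔ IntermediateField.adjoin ℚ S, IntermediateField.finiteDimensional_sup _ _, ?_⟩
  intro τ hτ
  have hfix : ∀ x ∈ (L ⊔ IntermediateField.adjoin ℚ S : IntermediateField ℚ Kb), τ x = x := by
    intro x hx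
    exact (IntermediateField.mem_fixingSubgroup_iff _ _).mp hτ x hx
  have hH := InfiniteGalois.fixingSubgroup_fixedField (k := ℚ) (K := Kb) ⟨H, hHc⟩
  have hτH : τ ∈ (IntermediateField.fixedField H).fixingSubgroup := by
    rw [IntermediateField.mem_fixingSubgroup_iff]
    intro x hx
    have hx' : ∀ h ∈ H, h x = x := by
      intro h hh
      exact (IntermediateField.mem_fixedField_iff _ _).mp hx h hh
    have hcl := mem_closure_of_fixed H hHn L hHL hsq x hx'
    clear hx hx'
    induction hcl using AddSubgroup.closure_induction with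
    | mem y hy =>
      obtain ⟨hy1, hy2⟩ := hy
      by_cases hy0 : y = 0
      · rw [hy0, map_zero]
      apply hfix
      set d : L := ⟨y ^ 2, hy2⟩ with hd
      have hd0 : d ≠ 0 := by
        intro h
        have : (d : Kb) = 0 := by rw [h]; rfl
        exact hy0 (by simpa [hd] using this)
      obtain ⟨r, hrR, c, hc0, hdrc⟩ := hR d hd0 (by
        intro v hv
        have hv' : ¬ FD.below L v ∣ M := by
          intro h
          exact hv (hTfin.mem_toFinset.mpr h)
        exact val_sq_of_inertia_le H hHn hHc L hHL y hy0 hy1 d rfl v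
          (fun A hA => hI _ (FD.below_prime L v) hv' A hA))
      have h1 : y ^ 2 = ((c : Kb) * s r) ^ 2 := by
        have h2 : (d : Kb) = (r : Kb) * (c : Kb) ^ 2 := by rw [hdrc]; rfl
        rw [mul_pow, hs, mul_comm, ← h2]
      have hcs : (c : Kb) * s r ∈ (L ⊔ IntermediateField.adjoin ℚ S : IntermediateField ℚ Kb) := by
        apply mul_mem
        · exact (le_sup_left : L ≤ _) c.2
        · exact (le_sup_right : IntermediateField.adjoin ℚ S ≤ _)
            (IntermediateField.subset_adjoin _ _ ⟨r, hrR, rfl⟩)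
      rcases sq_eq_sq_iff_eq_or_eq_neg.mp h1 with h | h
      · rw [h]; exact hcs
      · rw [h]; exact neg_mem hcs
    | zero => exact map_zero _
    | add a b _ _ ha hb => rw [map_add, ha, hb]
    | neg a _ ha => rw [map_neg, ha]
  have hH' : (IntermediateField.fixedField H).fixingSubgroup = H := hH
  rw [← hH']
  exact hτH

end Fermat.Agent.S17.WMW
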