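import Fermat.Agent.GES.Main

set_option autoImplicit false

/-!
# S17 / WMW : the Kummer cocycles of `X₀(N)` (definitions and formal properties)

* `KK N` : the group of `f ∈ F_N^×` whose divisor is Galois invariant modulo `2`, i.e. `τ f / f ∈ DN N 2` for all `τ ∈ G_ℚ`;
* `kum N f τ = [τ f / f] ∈ V_2(N)` : a `1`-cocycle;
* `HH N` : the subgroup of the `τ` which act trivially on `V_2(N)` and kill all the cocycles `kum N f`.
-/

noncomputable section

namespace Fermat.Agent.S17.WMW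

open AlgebraicCurve ModularCurve
open Fermat.Agent.S24 (Kb FN)
open Fermat.Agent.GES (GQ VN DN galF galU rhoV Vm galU_mem)

theorem galU_mul' (N : ℕ) (σ τ : GQ) (f : (FN N)ˣ) :
    galU N (σ * τ) f = galU N σ (galU N τ f) :=
  Units.ext (Fermat.Agent.GES.galF_mul N σ τ _)

theorem galU_one' (N : ℕ) (f : (FN N)ˣ) : galU N 1 f = f :=
  Units.ext (Fermat.Agent.GES.galF_one N _)

/-- functions whose divisor is Galois invariant modulo `2`. -/
def KK (N : ℕ) : Subgroup (FN N)ˣ where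
  carrier := {f | ∀ τ : GQ, galU N τ f / f ∈ DN N 2}
  one_mem' := fun τ => by
    simp only [map_one, div_one]
    exact (DN N 2).one_mem
  mul_mem' := fun {a b} ha hb τ => by
    have : galU N τ (a * b) / (a * b) = (galU N τ a / a) * (galU N τ b / b) := by
      rw [map_mul, mul_div_mul_comm]
    rw [this]
    exact (DN N 2).mul_mem (ha τ) (hb τ)
  inv_mem' := fun {a} ha τ => by
    have : galU N τ a⁻¹ / a⁻¹ = (galU N τ a / a)⁻¹ := by
      rw [map_inv, inv_div_inv, inv_div]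
    rw [this]
    exact (DN N 2).inv_mem (ha τ)

theorem mem_KK {N : ℕ} {f : (FN N)ˣ} : f ∈ KK N ↔ ∀ τ : GQ, galU N τ f / f ∈ DN N 2 := Iff.rfl

/-- `KK N` is stable under Galois. -/
theorem galU_mem_KK (N : ℕ) (ρ : GQ) {f : (FN N)ˣ} (hf : f ∈ KK N) : galU N ρ f ∈ KK N := by
  intro τ
  have h : galU N τ (galU N ρ f) / galU N ρ f = (galU N (τ * ρ) f / f) * (galU N ρ f / f)⁻¹ := by
    rw [galU_mul', inv_div, div_mul_div_cancel]
  rw [h]
  exact (DN N 2).mul_mem (hf _) ((DN N 2).inv_mem (hf _))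

/-- the Kummer cocycle. -/
def kum (N : ℕ) (f : KK N) (τ : GQ) : VN N 2 := Vm.mk ⟨galU N τ f / f, f.2 τ⟩

theorem kum_mul (N : ℕ) (f : KK N) (σ τ : GQ) :
    kum N f (σ * τ) = rhoV N 2 σ (kum N f τ) + kum N f σ := by
  rw [kum, kum, kum, Fermat.Agent.GES.rhoV_mk, ← Vm.mk_mul]
  congr 1
  apply Subtype.ext
  show galU N (σ * τ) f / f = galU N σ (galU N τ f / f) * (galU N σ f / f)
  rw [galU_mul', map_div, div_mul_div_cancel]

theorem kum_one (N : ℕ) (f : KK N) : kum N f 1 = 0 := by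
  rw [kum, ← Vm.mk_one]
  congr 1
  apply Subtype.ext
  show galU N 1 f / f = 1
  rw [galU_one', div_self']

/-- conjugation formula. -/
theorem kum_galU (N : ℕ) (f : KK N) (ρ τ : GQ) :
    kum N ⟨galU N ρ f, galU_mem_KK N ρ f.2⟩ τ = rhoV N 2 ρ (kum N f (ρ⁻¹ * τ * ρ)) := by
  rw [kum, kum, Fermat.Agent.GES.rhoV_mk]
  congr 1
  apply Subtype.ext
  show galU N τ (galU N ρ f) / galU N ρ f = galU N ρ (galU N (ρ⁻¹ * τ * ρ) f / f)
  rw [map_div, ← galU_mul', ← galU_mul']
  congr 2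
  group

/-- the subgroup cut out by `V_2(N)` and all Kummer cocycles. -/
def HH (N : ℕ) : Subgroup GQ where
  carrier := {τ | rhoV N 2 τ = 1 ∧ ∀ f : KK N, kum N f τ = 0}
  one_mem' := ⟨map_one _, fun f => kum_one N f⟩
  mul_mem' := fun {a b} ha hb => ⟨by rw [map_mul, ha.1, hb.1, one_mul], fun f => by
    rw [kum_mul, hb.2 f, ha.2 f, map_zero, add_zero]⟩
  inv_mem' := fun {a} ha => ⟨by
    have h := map_mul (rhoV N 2) a⁻¹ a
    rw [inv_mul_cancel, map_one, ha.1, mul_one] at h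
    exact h.symm, fun f => by
    have h := kum_mul N f a⁻¹ a
    rw [inv_mul_cancel, kum_one, ha.2 f, map_zero, zero_add] at h
    exact h.symm⟩

theorem mem_HH {N : ℕ} {τ : GQ} :
    τ ∈ HH N ↔ rhoV N 2 τ = 1 ∧ ∀ f : KK N, kum N f τ = 0 := Iff.rfl

theorem HH_normal (N : ℕ) : (HH N).Normal := by
  constructor
  intro τ hτ ρ
  refine ⟨by rw [map_mul, map_mul, hτ.1, mul_one, ← map_mul, mul_inv_cancel, map_one], fun f => ?_⟩
  have h := kum_galU N f ρ⁻¹ τ
  rw [hτ.2, inv_inv] at h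
  have h2 := congrArg (rhoV N 2 ρ) h
  rw [map_zero, ← Module.End.mul_apply, ← map_mul, mul_inv_cancel, map_one,
    Module.End.one_apply] at h2
  exact h2.symm

/-- squares of elements acting trivially on `V_2(N)` lie in `HH N`. -/
theorem sq_mem_HH (N : ℕ) (τ : GQ) (hτ : rhoV N 2 τ = 1) : τ * τ ∈ HH N := by
  refine ⟨by rw [map_mul, hτ, one_mul], fun f => ?_⟩
  rw [kum_mul, hτ, Module.End.one_apply, ← two_nsmul]
  exact Vm.nsmul_eq_zero _

end Fermat.Agent.S17.WMW
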