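import Fermat.Agent.S17.WMW.Inert
import Fermat.Agent.S17.WMW.KF
import Fermat.Agent.NV.KappaLat

set_option autoImplicit false

/-!
# S17 / WMW : `HH N` is open

* task W-FinV : `finite_VN` (`NV.kappa_surjective`: `V_m(N)` is a quotient of the finitely generated group `S31.Lat N`, and is killed
  by `m`: `Vm.nsmul_eq_zero`; `AddCommGroup.finite_of_fg_isAddTorsion`, `AddGroup.fg_of_surjective`).
* task W-Level : `exists_level_rhoV` (`U₁ = {τ | rhoV N 2 τ = 1}` contains `(⨆ x, L x).fixingSubgroup`, `L x` from `GES.exists_level_V`, finitely many `x`;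
  so it is open, hence closed; `L = fixedField U₁`, `InfiniteGalois.fixingSubgroup_fixedField`, `InfiniteGalois.isOpen_iff_finite`).
* task W-Closed : `HH_isClosed` (`τ ↦ kum N f τ` is locally constant: `kum N f (τ₀ * u) = kum N f τ₀` for `u` fixing the level field of `f`
  (`GES.exists_level_F`, `kum_mul`); so `{τ | kum N f τ = 0}` is closed; intersect).
* `exists_level_HH` : assembly with `exists_level_of_exponent_two`.
-/

noncomputable section

namespace Fermat.Agent.S17.WMW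

open AlgebraicCurve ModularCurve
open Fermat.Agent.S24 (Kb FN)
open Fermat.Agent.GES (GQ VN DN galF galU rhoV Vm)

attribute [local instance] Fermat.Agent.S54.isAlgebraic_Lb Fermat.Agent.S54.isAlgClosure_Lb
  Fermat.Agent.S54.isGalois_Lb

theorem finite_VN (N m : ℕ) [NeZero N] [NeZero m] : Finite (VN N m) := by
  have hs := NV.kappa_surjective N m
  have hfg : AddGroup.FG (S31.Lat N) := Module.Finite.iff_addGroup_fg.mp inferInstance
  have : AddGroup.FG (VN N m) := AddGroup.fg_of_surjective hs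
  refine AddCommGroup.finite_of_fg_isAddTorsion (VN N m) ?_
  intro x
  rw [isOfFinAddOrder_iff_nsmul_eq_zero]
  exact ⟨m, Nat.pos_of_ne_zero (NeZero.ne m), Vm.nsmul_eq_zero x⟩

theorem level_open_aux (N : ℕ) [NeZero N] :
    ∃ L : IntermediateField ℚ Kb, FiniteDimensional ℚ L ∧
      ∀ τ : GQ, τ ∈ L.fixingSubgroup → rhoV N 2 τ = 1 := by
  have := finite_VN N 2
  choose L hL hLx using Fermat.Agent.GES.exists_level_V N 2
  have := Fintype.ofFinite (VN N 2)
  refine ⟨⨆ x, L x, ?_, fun τ hτ => ?_⟩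
  · have := hL
    exact IntermediateField.finiteDimensional_iSup_of_finite
  · apply LinearMap.ext
    intro x
    rw [Module.End.one_apply]
    apply hLx x τ
    intro y hy
    rw [IntermediateField.mem_fixingSubgroup_iff] at hτ
    exact hτ y (le_iSup L x hy)

theorem exists_level_rhoV (N : ℕ) [NeZero N] :
    ∃ L : IntermediateField ℚ Kb, FiniteDimensional ℚ L ∧
      ∀ τ : GQ, τ ∈ L.fixingSubgroup ↔ rhoV N 2 τ = 1 := by
  obtain ⟨L₀, hL₀, h₀⟩ := level_open_aux N
  let U : Subgroup GQ := (rhoV N 2).ker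
  have hU : ∀ τ, τ ∈ U ↔ rhoV N 2 τ = 1 := fun τ => MonoidHom.mem_ker
  have hopen : IsOpen (U : Set GQ) :=
    Subgroup.isOpen_mono (fun τ hτ => (hU τ).2 (h₀ τ hτ)) L₀.fixingSubgroup_isOpen
  have hclosed : IsClosed (U : Set GQ) := Subgroup.isClosed_of_isOpen U hopen
  have hFU : (IntermediateField.fixedField U).fixingSubgroup = U :=
    InfiniteGalois.fixingSubgroup_fixedField ⟨U, hclosed⟩
  refine ⟨IntermediateField.fixedField U, ?_, fun τ => ?_⟩
  · rw [← InfiniteGalois.isOpen_iff_finite, hFU]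
    exact hopen
  · rw [hFU, hU]

theorem closed_aux (N : ℕ) (f : KK N) : IsClosed {τ : GQ | kum N f τ = 0} := by
  obtain ⟨L, hL, hLf⟩ := Fermat.Agent.GES.exists_level_F N (((f : (FN N)ˣ)) : FN N)
  have hu : ∀ u ∈ L.fixingSubgroup, kum N f u = 0 := by
    intro u hu
    rw [IntermediateField.mem_fixingSubgroup_iff] at hu
    have h1 : galU N u (f : (FN N)ˣ) = f := Units.ext (hLf u hu)
    rw [kum, ← Vm.mk_one]
    congr 1
    apply Subtype.ext
    show galU N u (f : (FN N)ˣ) / f = 1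
    rw [h1, div_self']
  rw [← isOpen_compl_iff, isOpen_iff_mem_nhds]
  intro τ₀ hτ₀
  have hopen : IsOpen ((fun u => τ₀ * u) '' (L.fixingSubgroup : Set GQ)) :=
    (Homeomorph.mulLeft τ₀).isOpenMap _ L.fixingSubgroup_isOpen
  refine Filter.mem_of_superset (hopen.mem_nhds ⟨1, L.fixingSubgroup.one_mem, mul_one _⟩) ?_
  rintro _ ⟨u, hu', rfl⟩
  show ¬ kum N f (τ₀ * u) = 0
  rw [kum_mul, hu u hu', map_zero, zero_add]
  exact hτ₀

theorem HH_isClosed (N : ℕ) [NeZero N] : IsClosed (HH N : Set GQ) := by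
  obtain ⟨L, hL, hLρ⟩ := exists_level_rhoV N
  have h1 : (HH N : Set GQ) = (L.fixingSubgroup : Set GQ) ∩ ⋂ f : KK N, {τ : GQ | kum N f τ = 0} := by
    ext τ
    simp only [SetLike.mem_coe, Set.mem_inter_iff, Set.mem_iInter, Set.mem_ofPred_eq, mem_HH, hLρ]
  rw [h1]
  exact (Subgroup.isClosed_of_isOpen _ L.fixingSubgroup_isOpen).inter
    (isClosed_iInter fun f => closed_aux N f)

theorem exists_level_HH (N : ℕ) [NeZero N] :
    ∃ E : IntermediateField ℚ Kb, FiniteDimensional ℚ E ∧ E.fixingSubgroup ≤ HH N := by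
  obtain ⟨L, hL, hLρ⟩ := exists_level_rhoV N
  exact exists_level_of_exponent_two (HH N) (HH_normal N) (HH_isClosed N) L
    (fun τ hτ => (hLρ τ).2 hτ.1) (fun τ hτ => sq_mem_HH N τ ((hLρ τ).1 hτ)) (N * 2)
    (Nat.mul_ne_zero (NeZero.ne N) two_ne_zero)
    (fun ℓ hℓ hℓN A hA => inertia_le_HH N ℓ hℓ hℓN A hA)

/-- `G_ℚ / HH N` is finite. -/
theorem finite_quotient_HH (N : ℕ) [NeZero N] : Finite (GQ ⧸ HH N) := by
  obtain ⟨E, hE, hEH⟩ := exists_level_HH N
  exact Subgroup.quotient_finite_of_isOpen (HH N)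
    (Subgroup.isOpen_mono hEH E.fixingSubgroup_isOpen)

end Fermat.Agent.S17.WMW
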