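import Mathlib

set_option autoImplicit false
set_option linter.style.haveILetI false

/-!
# S17 / WMW, task W-SelUnits : units modulo squares are finite

Mathlib only.  `(𝓞 K)ˣ` is finitely generated (Dirichlet: `NumberField.Units`, instance
`Module.Finite ℤ (Additive (𝓞 K)ˣ)`), so `(𝓞 K)ˣ / squares` is a finitely generated torsion group, hence finite
(`AddCommGroup.finite_of_fg_isAddTorsion` / `CommGroup.finite_of_fg_torsion`); take one representative in each class.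
-/

namespace Fermat.Agent.S17.WMW

open NumberField

theorem exists_unit_reps (K : Type) [Field K] [NumberField K] :
    ∃ R : Finset (𝓞 K)ˣ, ∀ u : (𝓞 K)ˣ, ∃ r ∈ R, ∃ e : (𝓞 K)ˣ, u = r * e ^ 2 := by
  classical
  set S : Subgroup (𝓞 K)ˣ := (powMonoidHom 2 : (𝓞 K)ˣ →* (𝓞 K)ˣ).range with hS
  haveI : Group.FG (𝓞 K)ˣ := Group.fg_iff_monoid_fg.2 inferInstance
  haveI : Group.FG ((𝓞 K)ˣ ⧸ S) := inferInstance
  have htors : IsMulTorsion ((𝓞 K)ˣ ⧸ S) := by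
    intro x
    obtain ⟨u, rfl⟩ := QuotientGroup.mk_surjective x
    rw [isOfFinOrder_iff_pow_eq_one]
    refine ⟨2, two_pos, ?_⟩
    rw [← QuotientGroup.mk_pow, QuotientGroup.eq_one_iff]
    exact ⟨u, rfl⟩
  haveI : Finite ((𝓞 K)ˣ ⧸ S) := CommGroup.finite_of_fg_isMulTorsion _ htors
  haveI := Fintype.ofFinite ((𝓞 K)ˣ ⧸ S)
  refine ⟨Finset.univ.image (fun x : (𝓞 K)ˣ ⧸ S => Quotient.out x), fun u => ?_⟩
  refine ⟨Quotient.out (QuotientGroup.mk u : (𝓞 K)ˣ ⧸ S),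
    Finset.mem_image_of_mem _ (Finset.mem_univ _), ?_⟩
  have h1 : (QuotientGroup.mk (Quotient.out (QuotientGroup.mk u : (𝓞 K)ˣ ⧸ S)) : (𝓞 K)ˣ ⧸ S) =
      QuotientGroup.mk u := Quotient.out_eq' _
  rw [QuotientGroup.eq] at h1
  obtain ⟨e, he⟩ := h1
  refine ⟨e, ?_⟩
  have he' : e ^ 2 = (Quotient.out (QuotientGroup.mk u : (𝓞 K)ˣ ⧸ S))⁻¹ * u := he
  rw [he', mul_inv_cancel_left]

end Fermat.Agent.S17.WMW
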