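import Fermat.Agent.S17.WMW.SelDecomp
import Fermat.Agent.S17.WMW.SelUnits

set_option autoImplicit false
set_option linter.style.haveILetI false

/-!
# S17 / WMW, task W-Sel : finiteness of the 2-Selmer group `K(T, 2)` of a number field

Sketch.  (1) `d = x / y` with `x, y ∈ 𝓞 K`, so `d = (x y) / y ^ 2`: we may assume that `d` is integral (the hypothesis is
stable under multiplication by squares).
(2) `exists_ideal_decomp`: `(d) = t a ^ 2`, `t ∣ ∏ v ∈ T, v`.  The set of such `t` is finite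
(`UniqueFactorizationMonoid.fintypeSubtypeDvd`, the product is `≠ 0`), the class group is finite.
(3) If `(d) = t a ^ 2`, `(d') = t a' ^ 2` and `[a] = [a']`, then `(x) a = (y) a'` (`ClassGroup.mk0_eq_mk0_iff`), so
`(x ^ 2 d) = (y ^ 2 d')`, `x ^ 2 d = u y ^ 2 d'` with a unit `u` (`Ideal.span_singleton_eq_span_singleton`, `Associated`),
and `u = r e ^ 2` by `exists_unit_reps`.
(4) choose one `d'` for every pair `(t, class)` which occurs; `R = {r * d'}`.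
-/

namespace Fermat.Agent.S17.WMW

open NumberField IsDedekindDomain
open scoped nonZeroDivisors

/-- `d` is, up to squares, an integer `d₀` with `(d₀) = t a ^ 2`, `[a] = κ`. -/
def selRel (K : Type) [Field K] [NumberField K] (d : K) (t : Ideal (𝓞 K))
    (κ : ClassGroup (𝓞 K)) : Prop :=
  ∃ (d₀ : 𝓞 K) (a : (Ideal (𝓞 K))⁰) (c : K), d₀ ≠ 0 ∧ c ≠ 0 ∧ d = (d₀ : K) * c ^ 2 ∧
    Ideal.span {d₀} = t * (a : Ideal (𝓞 K)) ^ 2 ∧ ClassGroup.mk0 a = κ

theorem sel_exists_rel (K : Type) [Field K] [NumberField K]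
    (T : Finset (HeightOneSpectrum (𝓞 K))) (d : K) (hd : d ≠ 0)
    (h : ∀ v : HeightOneSpectrum (𝓞 K), v ∉ T → ∃ y : K, v.valuation K d = v.valuation K y ^ 2) :
    ∃ (t : Ideal (𝓞 K)) (κ : ClassGroup (𝓞 K)), t ∣ ∏ v ∈ T, v.asIdeal ∧ selRel K d t κ := by
  obtain ⟨x, y, hy, rfl⟩ := IsFractionRing.div_surjective (A := 𝓞 K) d
  have hy0 : y ≠ 0 := nonZeroDivisors.ne_zero hy
  have hyK : (algebraMap (𝓞 K) K y) ≠ 0 := by
    rw [Ne, map_eq_zero_iff _ (IsFractionRing.injective (𝓞 K) K)]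
    exact hy0
  have hx0 : x ≠ 0 := by
    rintro rfl
    apply hd
    simp
  obtain ⟨t, a, ha, ht, hta⟩ := exists_ideal_decomp K T (x * y) (mul_ne_zero hx0 hy0) (by
    intro v hv
    obtain ⟨z, hz⟩ := h v hv
    refine ⟨z * algebraMap (𝓞 K) K y, ?_⟩
    rw [map_mul, mul_pow, ← hz, ← map_pow, ← map_mul]
    congr 1
    show algebraMap (𝓞 K) K (x * y) = _
    rw [map_mul]
    field_simp)
  refine ⟨t, ClassGroup.mk0 ⟨a, mem_nonZeroDivisors_of_ne_zero ha⟩, ht, x * y,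
    ⟨a, mem_nonZeroDivisors_of_ne_zero ha⟩, (algebraMap (𝓞 K) K y)⁻¹, mul_ne_zero hx0 hy0,
    inv_ne_zero hyK, ?_, hta, rfl⟩
  show _ = algebraMap (𝓞 K) K (x * y) * _
  rw [map_mul]
  field_simp

theorem sel_rel_unique (K : Type) [Field K] [NumberField K] {d d' : K} {t : Ideal (𝓞 K)}
    {κ : ClassGroup (𝓞 K)} (h : selRel K d t κ) (h' : selRel K d' t κ) :
    ∃ (u : (𝓞 K)ˣ) (c : K), c ≠ 0 ∧ d = ((u : 𝓞 K) : K) * d' * c ^ 2 := by
  obtain ⟨d₀, a, c, hd₀, hc, rfl, hta, hκ⟩ := h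
  obtain ⟨d₀', a', c', hd₀', hc', rfl, hta', hκ'⟩ := h'
  obtain ⟨x, y, hx, hy, hxy⟩ := ClassGroup.mk0_eq_mk0_iff.1 (hκ.trans hκ'.symm)
  have h1 : Ideal.span {y ^ 2 * d₀'} = Ideal.span {x ^ 2 * d₀} := by
    rw [← Ideal.span_singleton_mul_span_singleton, ← Ideal.span_singleton_mul_span_singleton,
      ← Ideal.span_singleton_pow, ← Ideal.span_singleton_pow, hta, hta']
    calc Ideal.span {y} ^ 2 * (t * (a' : Ideal (𝓞 K)) ^ 2)
        = t * (Ideal.span {y} * (a' : Ideal (𝓞 K))) ^ 2 := by ring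
      _ = t * (Ideal.span {x} * (a : Ideal (𝓞 K))) ^ 2 := by rw [hxy]
      _ = Ideal.span {x} ^ 2 * (t * (a : Ideal (𝓞 K)) ^ 2) := by ring
  obtain ⟨u, hu⟩ := Ideal.span_singleton_eq_span_singleton.1 h1
  have hxK : (algebraMap (𝓞 K) K x) ≠ 0 := by
    rw [Ne, map_eq_zero_iff _ (IsFractionRing.injective (𝓞 K) K)]
    exact hx
  have hyK : (algebraMap (𝓞 K) K y) ≠ 0 := by
    rw [Ne, map_eq_zero_iff _ (IsFractionRing.injective (𝓞 K) K)]
    exact hy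
  refine ⟨u, algebraMap (𝓞 K) K y * c / (algebraMap (𝓞 K) K x * c'),
    div_ne_zero (mul_ne_zero hyK hc) (mul_ne_zero hxK hc'), ?_⟩
  have hu' := congrArg (algebraMap (𝓞 K) K) hu
  simp only [map_mul, map_pow] at hu'
  field_simp
  linear_combination (-1 : K) * hu'

theorem exists_selmer_reps (K : Type) [Field K] [NumberField K]
    (T : Finset (HeightOneSpectrum (𝓞 K))) :
    ∃ R : Finset K, ∀ d : K, d ≠ 0 →
      (∀ v : HeightOneSpectrum (𝓞 K), v ∉ T → ∃ y : K, v.valuation K d = v.valuation K y ^ 2) →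
      ∃ r ∈ R, ∃ c : K, c ≠ 0 ∧ d = r * c ^ 2 := by
  classical
  obtain ⟨RU, hRU⟩ := exists_unit_reps K
  set P : Ideal (𝓞 K) := ∏ v ∈ T, v.asIdeal with hP
  have hP0 : P ≠ 0 := Finset.prod_ne_zero_iff.2 fun v _ => v.ne_bot
  letI : Fintype {t : Ideal (𝓞 K) // t ∣ P} := UniqueFactorizationMonoid.fintypeSubtypeDvd P hP0
  -- one representative for every pair which occurs
  set rep : {t : Ideal (𝓞 K) // t ∣ P} × ClassGroup (𝓞 K) → K := fun j =>
    if hj : ∃ d' : K, selRel K d' j.1.1 j.2 then hj.choose else 1 with hrep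
  refine ⟨(Finset.univ ×ˢ RU).image fun jr => (((jr.2 : (𝓞 K)ˣ) : 𝓞 K) : K) * rep jr.1,
    fun d hd h => ?_⟩
  obtain ⟨t, κ, ht, hrel⟩ := sel_exists_rel K T d hd h
  have hj : ∃ d' : K, selRel K d' t κ := ⟨d, hrel⟩
  have hrep' : rep (⟨t, ht⟩, κ) = hj.choose := by
    rw [hrep]
    exact dif_pos hj
  obtain ⟨u, c, hc, hdu⟩ := sel_rel_unique K hrel hj.choose_spec
  obtain ⟨r, hr, e, hue⟩ := hRU u
  refine ⟨(((r : (𝓞 K)ˣ) : 𝓞 K) : K) * rep (⟨t, ht⟩, κ), ?_, (((e : (𝓞 K)ˣ) : 𝓞 K) : K) * c,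
    mul_ne_zero ?_ hc, ?_⟩
  · exact Finset.mem_image.2 ⟨((⟨t, ht⟩, κ), r), Finset.mem_product.2 ⟨Finset.mem_univ _, hr⟩, rfl⟩
  · have : (algebraMap (𝓞 K) K (e : 𝓞 K)) ≠ 0 := by
      rw [Ne, map_eq_zero_iff _ (IsFractionRing.injective (𝓞 K) K)]
      exact e.ne_zero
    exact this
  · rw [hdu, hrep', hue]
    push_cast
    ring

end Fermat.Agent.S17.WMW
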