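import Mathlib

set_option autoImplicit false

/-!
# S17 / WMW, task W-SelDecomp : `(d) = t * a ^ 2` with `t` supported in `T`

Mathlib only.  `K` a number field, `T` a finite set of primes, `d ≠ 0` an algebraic integer whose valuation is a
square at every prime outside `T`.

Sketch.  Let `s = normalizedFactors (span {d})` (a multiset of prime ideals), `a = ∏ P ∈ s.toFinset, P ^ (s.count P / 2)`,
`t = ∏ P ∈ s.toFinset, P ^ (s.count P % 2)`.  Then `t * a ^ 2 = ∏ P ^ s.count P = s.prod = span {d}`
(`Finset.prod_multiset_count`, `Ideal.prod_normalizedFactors_eq_self`).  If `s.count P` is odd, then `P = v.asIdeal` with `v ∈ T`: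
otherwise `v.valuation K d = v.valuation K y ^ 2`; `v.valuation K d = exp (-(count))`
(`HeightOneSpectrum.valuation_of_algebraMap`, `intValuation_def` / `intValuation_if_neg`, `count_associates_factors_eq` or
`Ideal.count_associates_eq`), and `v.valuation K y = exp k` for some integer `k`, so `count = -2 k`.
Hence `t` is a product of distinct `v.asIdeal`, `v ∈ T`, and divides `∏ v ∈ T, v.asIdeal` (`Finset.prod_dvd_prod_of_subset` after
reindexing; `HeightOneSpectrum.ext`).
-/

namespace Fermat.Agent.S17.WMW

open NumberField IsDedekindDomain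

theorem exists_ideal_decomp (K : Type) [Field K] [NumberField K]
    (T : Finset (HeightOneSpectrum (𝓞 K))) (d : 𝓞 K) (hd : d ≠ 0)
    (h : ∀ v : HeightOneSpectrum (𝓞 K), v ∉ T →
      ∃ y : K, v.valuation K (d : K) = v.valuation K y ^ 2) :
    ∃ t a : Ideal (𝓞 K), a ≠ ⊥ ∧ t ∣ ∏ v ∈ T, v.asIdeal ∧ Ideal.span {d} = t * a ^ 2 := by
  classical
  set I : Ideal (𝓞 K) := Ideal.span {d} with hI
  have hI0 : I ≠ 0 := by
    rw [hI, Ne, Ideal.zero_eq_bot, Ideal.span_singleton_eq_bot]
    exact hd
  set c : HeightOneSpectrum (𝓞 K) → ℕ :=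
    fun v => (Associates.mk v.asIdeal).count (Associates.mk I).factors with hc
  have hfin : {v : HeightOneSpectrum (𝓞 K) | c v ≠ 0}.Finite := by
    have := Filter.eventually_cofinite.mp (Associates.finite_factors hI0)
    refine this.subset ?_
    intro v hv
    simpa using hv
  have heven : ∀ v : HeightOneSpectrum (𝓞 K), v ∉ T → c v % 2 = 0 := by
    intro v hv
    obtain ⟨y, hy⟩ := h v hv
    rw [HeightOneSpectrum.valuation_of_algebraMap, HeightOneSpectrum.intValuation_if_neg v hd]
      at hy
    have h1 := congrArg WithZero.log hy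
    rw [WithZero.log_exp, WithZero.log_pow] at h1
    have h2 : -(c v : ℤ) = 2 • WithZero.log (v.valuation K y) := h1
    rw [nsmul_eq_mul] at h2
    push_cast at h2
    omega
  have hsupp : ∀ f : ℕ → ℕ, f 0 = 0 →
      (Function.mulSupport fun v : HeightOneSpectrum (𝓞 K) => v.asIdeal ^ f (c v)).Finite := by
    intro f hf
    refine hfin.subset ?_
    intro v hv hcv
    apply hv
    have hcv' : c v = 0 := hcv
    show v.asIdeal ^ f (c v) = 1
    rw [hcv', hf, pow_zero]
  set a : Ideal (𝓞 K) := ∏ᶠ v : HeightOneSpectrum (𝓞 K), v.asIdeal ^ (c v / 2) with ha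
  set t : Ideal (𝓞 K) := ∏ᶠ v : HeightOneSpectrum (𝓞 K), v.asIdeal ^ (c v % 2) with ht
  have hprod : I = t * a ^ 2 := by
    have h1 := Ideal.finprod_heightOneSpectrum_factorization hI0
    rw [ha, ht, finprod_pow (hsupp (fun n => n / 2) (by norm_num)),
      ← finprod_mul_distrib (hsupp (fun n => n % 2) (by norm_num)) ?_]
    · rw [← h1]
      refine finprod_congr fun v => ?_
      rw [HeightOneSpectrum.maxPowDividing, ← pow_mul, ← pow_add]
      congr 1
      show c v = c v % 2 + c v / 2 * 2
      omega
    · have := hsupp (fun n => n / 2 * 2) (by norm_num)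
      refine this.subset ?_
      intro v hv
      simpa [← pow_mul] using hv
  refine ⟨t, a, ?_, ?_, hprod⟩
  · intro h0
    apply hI0
    rw [hprod, h0]
    simp
  · have h1 : t = ∏ v ∈ T, v.asIdeal ^ (c v % 2) := by
      rw [ht]
      refine finprod_eq_prod_of_mulSupport_subset _ ?_
      intro v hv
      by_contra hvT
      apply hv
      show v.asIdeal ^ (c v % 2) = 1
      rw [heven v (by simpa using hvT), pow_zero]
    rw [h1]
    refine Finset.prod_dvd_prod_of_dvd _ _ fun v _ => ?_
    have h2 : c v % 2 ≤ 1 := by omega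
    calc v.asIdeal ^ (c v % 2) ∣ v.asIdeal ^ 1 := pow_dvd_pow _ h2
      _ = v.asIdeal := pow_one _

end Fermat.Agent.S17.WMW
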